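import Mathlib

/-!
# S13 / T7 (helper11): valuations on `ℚ` with `w 2 < 1`

Any valuation `w` on `ℚ` with `w 2 < 1` behaves like the `2`-adic valuation:
odd integers are units, every nonzero rational has valuation `(w 2) ^ k`, and the residue
field is `𝔽₂` (an integral rational is congruent to `0` or to `1`).
-/

set_option autoImplicit false

namespace Fermat.Agent.S13.H11

variable {Γ₀ : Type*} [LinearOrderedCommGroupWithZero Γ₀] (w : Valuation ℚ Γ₀)

lemma val_nat_le_one (n : ℕ) : w (n : ℚ) ≤ 1 := by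
  induction n with
  | zero => simp
  | succ n ih =>
    push_cast
    exact (w.map_add _ _).trans (max_le ih (by simp))

lemma val_int_le_one (n : ℤ) : w (n : ℚ) ≤ 1 := by
  rcases Int.eq_nat_or_neg n with ⟨m, rfl | rfl⟩
  · exact_mod_cast val_nat_le_one w m
  · push_cast
    rw [Valuation.map_neg]
    exact val_nat_le_one w m

variable {w}

lemma val_two_ne_zero : w (2 : ℚ) ≠ 0 := by
  rw [Valuation.ne_zero_iff]; norm_num

lemma val_two_pos : 0 < w (2 : ℚ) := by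
  rw [Valuation.pos_iff]; norm_num

lemma val_even_lt_one (h2 : w (2 : ℚ) < 1) {n : ℤ} (hn : Even n) : w (n : ℚ) < 1 := by
  obtain ⟨m, rfl⟩ := hn
  have : ((m + m : ℤ) : ℚ) = 2 * (m : ℚ) := by push_cast; ring
  rw [this, map_mul]
  exact (mul_le_of_le_one_right' (val_int_le_one w m)).trans_lt h2

lemma val_odd_eq_one (h2 : w (2 : ℚ) < 1) {n : ℤ} (hn : Odd n) : w (n : ℚ) = 1 := by
  obtain ⟨m, rfl⟩ := hn
  have h : w ((2 * m : ℤ) : ℚ) < 1 := val_even_lt_one h2 (even_two_mul m)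
  have : ((2 * m + 1 : ℤ) : ℚ) = 1 + ((2 * m : ℤ) : ℚ) := by push_cast; ring
  rw [this, w.map_add_eq_of_lt_left (by rwa [map_one]), map_one]

lemma int_eq_two_pow_mul_odd {z : ℤ} (hz : z ≠ 0) :
    ∃ (a : ℕ) (m : ℤ), Odd m ∧ z = 2 ^ a * m := by
  have hfin : FiniteMultiplicity (2 : ℤ) z :=
    Int.finiteMultiplicity_iff.mpr ⟨by decide, hz⟩
  obtain ⟨c, hc, hnd⟩ := hfin.exists_eq_pow_mul_and_not_dvd
  refine ⟨_, c, ?_, hc⟩
  rw [← Int.not_even_iff_odd, even_iff_two_dvd]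
  exact hnd

/-- Every nonzero rational is `2 ^ k * m / n` with `m`, `n` odd. -/
lemma rat_eq_two_zpow_mul_odd_div_odd {r : ℚ} (hr : r ≠ 0) :
    ∃ (k : ℤ) (m n : ℤ), Odd m ∧ Odd n ∧ r = (2 : ℚ) ^ k * m / n := by
  have hnum : r.num ≠ 0 := by
    rw [Ne, Rat.num_eq_zero]; exact hr
  have hden : (r.den : ℤ) ≠ 0 := by exact_mod_cast r.den_ne_zero
  obtain ⟨a, m, hm, hma⟩ := int_eq_two_pow_mul_odd hnum
  obtain ⟨b, n, hn, hnb⟩ := int_eq_two_pow_mul_odd hden
  refine ⟨(a : ℤ) - b, m, n, hm, hn, ?_⟩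
  have h2 : (2 : ℚ) ≠ 0 := by norm_num
  have hn0 : (n : ℚ) ≠ 0 := by
    intro h
    have : n = 0 := by exact_mod_cast h
    rw [this] at hn
    exact absurd hn (by decide)
  have hnumeq : (r.num : ℚ) = (2 : ℚ) ^ a * m := by
    have := congrArg (Int.cast : ℤ → ℚ) hma
    push_cast at this
    exact this
  have hdeneq : (r.den : ℚ) = (2 : ℚ) ^ b * n := by
    have := congrArg (Int.cast : ℤ → ℚ) hnb
    push_cast at this
    exact this
  calc r = (r.num : ℚ) / (r.den : ℚ) := (Rat.num_div_den r).symm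
    _ = ((2 : ℚ) ^ a * m) / ((2 : ℚ) ^ b * n) := by rw [hnumeq, hdeneq]
    _ = (2 : ℚ) ^ ((a : ℤ) - b) * m / n := by
      rw [zpow_sub₀ h2, zpow_natCast, zpow_natCast]
      field_simp

lemma val_two_zpow (k : ℤ) : w ((2 : ℚ) ^ k) = w 2 ^ k := map_zpow₀ w 2 k

/-- Every nonzero rational has valuation `(w 2) ^ k`. -/
lemma exists_val_eq_zpow (h2 : w (2 : ℚ) < 1) {r : ℚ} (hr : r ≠ 0) :
    ∃ k : ℤ, w r = w 2 ^ k := by
  obtain ⟨k, m, n, hm, hn, rfl⟩ := rat_eq_two_zpow_mul_odd_div_odd hr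
  refine ⟨k, ?_⟩
  rw [map_div₀, map_mul, val_odd_eq_one h2 hm, val_odd_eq_one h2 hn, val_two_zpow, mul_one,
    div_one]

lemma zpow_lt_one_iff (h2 : w (2 : ℚ) < 1) (k : ℤ) : w 2 ^ k < 1 ↔ 0 < k := by
  constructor
  · intro h
    by_contra hk
    rw [not_lt] at hk
    obtain ⟨n, rfl⟩ : ∃ n : ℕ, k = -n := ⟨(-k).toNat, by omega⟩
    rw [zpow_neg, zpow_natCast] at h
    have h1 : (w 2) ^ n ≤ 1 := pow_le_one₀ zero_le h2.le
    have h3 : 0 < (w 2) ^ n := pow_pos val_two_pos n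
    have := (one_le_inv₀ h3).mpr h1
    exact absurd h (not_lt.mpr this)
  · intro hk
    obtain ⟨n, rfl⟩ : ∃ n : ℕ, k = n := ⟨k.toNat, by omega⟩
    rw [zpow_natCast]
    have hn : n ≠ 0 := by omega
    exact pow_lt_one₀ zero_le h2 hn

lemma zpow_lt_zpow_iff (h2 : w (2 : ℚ) < 1) (k l : ℤ) : w 2 ^ k < w 2 ^ l ↔ l < k := by
  have h0 : w (2 : ℚ) ≠ 0 := val_two_ne_zero
  have hl : 0 < w 2 ^ l := zpow_pos val_two_pos l
  have : w 2 ^ k = w 2 ^ (k - l) * w 2 ^ l := by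
    rw [← zpow_add₀ h0]; congr 1; ring
  rw [this]
  constructor
  · intro h
    have h' : w 2 ^ (k - l) < 1 := by
      by_contra hc
      rw [not_lt] at hc
      have := mul_le_mul_left hc (w 2 ^ l)
      rw [one_mul] at this
      exact absurd h (not_lt.mpr this)
    have := (zpow_lt_one_iff h2 _).mp h'
    omega
  · intro h
    have h' : w 2 ^ (k - l) < 1 := (zpow_lt_one_iff h2 _).mpr (by omega)
    calc w 2 ^ (k - l) * w 2 ^ l < 1 * w 2 ^ l := by
          exact mul_lt_mul_of_pos_right h' hl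
      _ = w 2 ^ l := one_mul _

lemma zpow_eq_zpow_iff (h2 : w (2 : ℚ) < 1) (k l : ℤ) : w 2 ^ k = w 2 ^ l ↔ k = l := by
  constructor
  · intro h
    rcases lt_trichotomy k l with hlt | heq | hgt
    · exact absurd h ((zpow_lt_zpow_iff h2 l k).mpr hlt).ne'
    · exact heq
    · exact absurd h ((zpow_lt_zpow_iff h2 k l).mpr hgt).ne
  · rintro rfl; rfl

/-- The residue field is `𝔽₂`. -/
lemma val_lt_one_or_sub_one (h2 : w (2 : ℚ) < 1) {r : ℚ} (hr : w r ≤ 1) :
    w r < 1 ∨ w (r - 1) < 1 := by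
  by_cases hr0 : r = 0
  · left; rw [hr0, map_zero]; exact zero_lt_one
  obtain ⟨k, m, n, hm, hn, rfl⟩ := rat_eq_two_zpow_mul_odd_div_odd hr0
  have hval : w ((2 : ℚ) ^ k * m / n) = w 2 ^ k := by
    rw [map_div₀, map_mul, val_odd_eq_one h2 hm, val_odd_eq_one h2 hn, val_two_zpow, mul_one,
      div_one]
  rcases lt_trichotomy k 0 with hk | hk | hk
  · exfalso
    rw [hval] at hr
    have : w 2 ^ (0 : ℤ) < w 2 ^ k := (zpow_lt_zpow_iff h2 0 k).mpr hk
    rw [zpow_zero] at this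
    exact absurd hr (not_le.mpr this)
  · right
    subst hk
    have hn0 : (n : ℚ) ≠ 0 := by
      intro h
      have : n = 0 := by exact_mod_cast h
      rw [this] at hn
      exact absurd hn (by decide)
    have : (2 : ℚ) ^ (0 : ℤ) * m / n - 1 = ((m - n : ℤ) : ℚ) / n := by
      push_cast
      field_simp
    rw [this, map_div₀, val_odd_eq_one h2 hn, div_one]
    exact val_even_lt_one h2 (hm.sub_odd hn)
  · left
    rw [hval]
    exact (zpow_lt_one_iff h2 k).mpr hk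

lemma val_sub_lt_one_of_val_eq_one (h2 : w (2 : ℚ) < 1) {r s : ℚ} (hr : w r = 1) (hs : w s = 1) :
    w (r - s) < 1 := by
  have h1 : w (r - 1) < 1 := (val_lt_one_or_sub_one h2 hr.le).resolve_left hr.not_lt
  have h3 : w (s - 1) < 1 := (val_lt_one_or_sub_one h2 hs.le).resolve_left hs.not_lt
  have : r - s = (r - 1) - (s - 1) := by ring
  rw [this]
  exact (w.map_sub _ _).trans_lt (max_lt h1 h3)

end Fermat.Agent.S13.H11
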