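import Mathlib
import Fermat.Prelude.Def_FLTPrelim_FreyPackage
import Fermat.Agent.S13.H11.ValQ

/-!
# S13 / T7 (helper11): `2`-adic arithmetic of the Frey curve

For a Frey package (`a ≡ 3 mod 4`, `b` even, `p ≥ 5`) and a valuation `w` on `ℚ` with `w 2 < 1`:
`a₂ ∈ ℤ`, `w a₄ = (w 2) ^ M` with `M = p β - 4 ≥ 1`, `β ≥ 1`, and `p ∤ 2 M`.
-/

set_option autoImplicit false

namespace Fermat.Agent.S13.H11

variable (P : FreyPackage)

lemma frey_a_odd : Odd P.a := by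
  rw [← Int.not_even_iff_odd]
  intro h
  obtain ⟨k, hk⟩ := h
  have h4 := P.ha4
  rw [hk] at h4
  push_cast at h4
  have : ∀ z : ZMod 4, z + z ≠ 3 := by decide
  exact this _ h4

lemma frey_b_even : Even P.b := by
  rw [even_iff_two_dvd]
  exact (ZMod.intCast_zmod_eq_zero_iff_dvd P.b 2).1 P.hb2

lemma frey_four_dvd : (4 : ℤ) ∣ P.b ^ P.p - 1 - P.a ^ P.p := by
  have h1 : (4 : ℤ) ∣ P.b ^ P.p := by
    obtain ⟨k, hk⟩ := even_iff_two_dvd.mp (frey_b_even P)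
    have hp : P.p = 2 + (P.p - 2) := by have := P.hp5; omega
    have h2p : (2 : ℤ) ^ P.p = 4 * 2 ^ (P.p - 2) := by
      conv_lhs => rw [hp, pow_add]
      norm_num
    rw [hk, mul_pow, h2p]
    exact ⟨2 ^ (P.p - 2) * k ^ P.p, by ring⟩
  have h2 : (4 : ℤ) ∣ 1 + P.a ^ P.p := by
    apply (ZMod.intCast_zmod_eq_zero_iff_dvd (1 + P.a ^ P.p) 4).mp
    push_cast
    rw [P.ha4]
    have h3 : (3 : ZMod 4) = -1 := by decide
    rw [h3, P.hp_odd.neg_one_pow]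
    ring
  have : P.b ^ P.p - 1 - P.a ^ P.p = P.b ^ P.p - (1 + P.a ^ P.p) := by ring
  rw [this]
  exact dvd_sub h1 h2

/-- The `2`-adic valuation of `b` (as a bare natural number with its defining property). -/
lemma frey_b_decomp : ∃ (β : ℕ) (b' : ℤ), 1 ≤ β ∧ Odd b' ∧ P.b = 2 ^ β * b' := by
  obtain ⟨β, b', hb', hb⟩ := int_eq_two_pow_mul_odd P.hb0
  refine ⟨β, b', ?_, hb', hb⟩
  by_contra h
  have h0 : β = 0 := by omega
  subst h0
  rw [pow_zero, one_mul] at hb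
  have := frey_b_even P
  rw [hb] at this
  exact (Int.not_even_iff_odd.mpr hb') this

lemma frey_a₂_eq : ∃ z : ℤ, P.freyCurve.a₂ = (z : ℚ) := by
  obtain ⟨z, hz⟩ := frey_four_dvd P
  refine ⟨z, ?_⟩
  have : ((P.b : ℚ) ^ P.p - 1 - (P.a : ℚ) ^ P.p) = 4 * (z : ℚ) := by
    have := congrArg (Int.cast : ℤ → ℚ) hz
    push_cast at this
    exact this
  simp only [FreyPackage.freyCurve]
  rw [this]
  field_simp

lemma frey_a₁_eq : P.freyCurve.a₁ = 1 := rfl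
lemma frey_a₃_eq : P.freyCurve.a₃ = 0 := rfl
lemma frey_a₆_eq : P.freyCurve.a₆ = 0 := rfl
lemma frey_a₄_eq : P.freyCurve.a₄ = -((P.a : ℚ) ^ P.p) * ((P.b : ℚ) ^ P.p) / 16 := rfl

lemma frey_a₄_ne_zero : P.freyCurve.a₄ ≠ 0 := by
  rw [frey_a₄_eq]
  have ha : (P.a : ℚ) ≠ 0 := by exact_mod_cast P.ha0
  have hb : (P.b : ℚ) ≠ 0 := by exact_mod_cast P.hb0
  have := pow_ne_zero P.p ha
  have := pow_ne_zero P.p hb
  simp only [ne_eq, div_eq_zero_iff, mul_eq_zero, neg_eq_zero, not_or]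
  refine ⟨⟨by assumption, by assumption⟩, by norm_num⟩

variable {Γ₀ : Type*} [LinearOrderedCommGroupWithZero Γ₀] {w : Valuation ℚ Γ₀}

lemma frey_val_a₂ : w P.freyCurve.a₂ ≤ 1 := by
  obtain ⟨z, hz⟩ := frey_a₂_eq P
  rw [hz]
  exact val_int_le_one w z

/-- `w a₄ = (w 2) ^ (p β - 4)` where `β ≥ 1` is the `2`-adic valuation of `b`. -/
lemma frey_val_a₄ (h2 : w (2 : ℚ) < 1) :
    ∃ β : ℕ, 1 ≤ β ∧ w P.freyCurve.a₄ = w 2 ^ ((P.p : ℤ) * β - 4) := by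
  obtain ⟨β, b', hβ, hb', hb⟩ := frey_b_decomp P
  refine ⟨β, hβ, ?_⟩
  have h20 : (2 : ℚ) ≠ 0 := by norm_num
  have hbq : (P.b : ℚ) = 2 ^ β * (b' : ℚ) := by
    have := congrArg (Int.cast : ℤ → ℚ) hb
    push_cast at this
    exact this
  have hwa : w ((P.a : ℚ) ^ P.p) = 1 := by
    rw [map_pow, val_odd_eq_one h2 (frey_a_odd P), one_pow]
  have hwb' : w ((b' : ℚ) ^ P.p) = 1 := by
    rw [map_pow, val_odd_eq_one h2 hb', one_pow]
  have h16 : (16 : ℚ) = 2 ^ (4 : ℕ) := by norm_num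
  rw [frey_a₄_eq, map_div₀, map_mul, Valuation.map_neg, hwa, one_mul, hbq, mul_pow, map_mul,
    hwb', mul_one, h16, map_pow, map_pow, map_pow, ← pow_mul, zpow_sub₀ val_two_ne_zero]
  congr 1
  · rw [mul_comm]
    exact_mod_cast (zpow_natCast (w (2 : ℚ)) (P.p * β)).symm
  · exact_mod_cast (zpow_natCast (w (2 : ℚ)) 4).symm

/-- `p` is prime to `2 M` for `M = p β - 4`. -/
lemma frey_not_dvd (β : ℤ) : ¬ ((P.p : ℤ) ∣ 2 * ((P.p : ℤ) * β - 4)) := by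
  intro h
  have h8 : (P.p : ℤ) ∣ 8 := by
    have h1 : (P.p : ℤ) ∣ 2 * ((P.p : ℤ) * β) := Dvd.intro (2 * β) (by ring)
    have := dvd_sub h1 h
    have e : 2 * ((P.p : ℤ) * β) - 2 * ((P.p : ℤ) * β - 4) = 8 := by ring
    rwa [e] at this
  have h8' : P.p ∣ 8 := by exact_mod_cast h8
  have h2 : P.p ∣ 2 := P.pp.dvd_of_dvd_pow (n := 3) (by norm_num; exact h8')
  have hle : P.p ≤ 2 := Nat.le_of_dvd (by norm_num) h2
  have h5 := P.hp5
  omega

/-- The arithmetic contradiction: `0 < ξ < M`, `p ξ = 2 M j` is impossible. -/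
lemma frey_arith_contra (β ξ j : ℤ) (h0 : 0 < ξ) (h1 : ξ < (P.p : ℤ) * β - 4)
    (h : (P.p : ℤ) * ξ = 2 * ((P.p : ℤ) * β - 4) * j) : False := by
  have hp : Prime (P.p : ℤ) := Nat.prime_iff_prime_int.mp P.pp
  have hdvd : (P.p : ℤ) ∣ 2 * ((P.p : ℤ) * β - 4) * j := Dvd.intro _ h
  rcases hp.dvd_or_dvd hdvd with h' | h'
  · exact frey_not_dvd P β h'
  · obtain ⟨j', rfl⟩ := h'
    have hp0 : (P.p : ℤ) ≠ 0 := by exact_mod_cast P.hp0
    have hξ : ξ = 2 * ((P.p : ℤ) * β - 4) * j' := by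
      apply mul_left_cancel₀ hp0
      rw [h]; ring
    have hM : 0 < (P.p : ℤ) * β - 4 := lt_trans h0 h1
    rcases lt_trichotomy j' 0 with hj | hj | hj
    · have : 2 * ((P.p : ℤ) * β - 4) * j' < 0 :=
        mul_neg_of_pos_of_neg (by linarith) hj
      linarith
    · subst hj; simp at hξ; omega
    · have : 2 * ((P.p : ℤ) * β - 4) * 1 ≤ 2 * ((P.p : ℤ) * β - 4) * j' :=
        mul_le_mul_of_nonneg_left (by omega) (by linarith)
      linarith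

end Fermat.Agent.S13.H11
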