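import Mathlib
import Fermat.Agent.S05.C1b
import Fermat.Agent.S13.H11.ValQ

/-!
# S13 / T7 (helper11): the `E₀` part of "no rational point of order `p`"

Abstract form over `ℚ`: `W` a Weierstrass curve over `ℚ` with `a₁ = 1`, `a₃ = 0` and
`w`-integral coefficients for a valuation `w` with `w 2 < 1` (so the residue field is `𝔽₂` and
the reduction `y² + xy = x³ + ā₂x² + ā₄ x + ā₆` has at most the affine points with `x̄ = 1`
outside `x̄ = 0`).  If no point of order `p` has `w x < 1`, then there is no point of order `p`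
at all (`p ≥ 5` prime).
-/

set_option autoImplicit false

namespace Fermat.Agent.S13.H11

open WeierstrassCurve WeierstrassCurve.Affine
open Fermat.Agent.S05

variable {Γ₀ : Type*} [LinearOrderedCommGroupWithZero Γ₀]

section group

variable {G : Type*} [AddCommGroup G]

lemma eq_zero_of_coprime_nsmul {k p : ℕ} (hkp : Nat.Coprime k p) {Q : G} (hk : k • Q = 0)
    (hp : p • Q = 0) : Q = 0 := by
  have h1 : addOrderOf Q ∣ k := addOrderOf_dvd_of_nsmul_eq_zero hk
  have h2 : addOrderOf Q ∣ p := addOrderOf_dvd_of_nsmul_eq_zero hp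
  have h3 : addOrderOf Q ∣ Nat.gcd k p := Nat.dvd_gcd h1 h2
  rw [hkp.gcd_eq_one, Nat.dvd_one] at h3
  exact AddMonoid.addOrderOf_eq_one_iff.mp h3

end group

variable [DecidableEq ℚ] {W : Affine ℚ} {w : Valuation ℚ Γ₀}

/-- A nonzero point of order `p` outside the node region has unit `x` and integral `y`. -/
lemma unit_coords (hW : SameRed.IntegralCoeffs W w) {p : ℕ} (hwp : w (p : ℚ) = 1)
    (hnode : ∀ (x y : ℚ) (h : W.Nonsingular x y), p • Point.some x y h = 0 → ¬ w x < 1)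
    {R : W.Point} (hR0 : R ≠ 0) (hR : p • R = 0) :
    ∃ (x y : ℚ) (h : W.Nonsingular x y), R = Point.some x y h ∧ w x = 1 ∧ w y ≤ 1 := by
  rcases R with _ | ⟨x, y, h⟩
  · exact absurd rfl hR0
  · obtain ⟨hx, hy⟩ := C1b.val_x_le_one_of_nsmul_eq_zero hW hwp h hR
    refine ⟨x, y, h, rfl, le_antisymm hx ?_, hy⟩
    exact not_lt.mp (hnode x y h hR)

/-- **`E₀` part of T7.** -/
theorem eq_zero_of_no_node_torsion (hW : SameRed.IntegralCoeffs W w) (h2 : w (2 : ℚ) < 1)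
    (ha₁ : W.a₁ = 1) (ha₃ : W.a₃ = 0) {p : ℕ} (hp : p.Prime) (hp5 : 5 ≤ p)
    (hnode : ∀ (x y : ℚ) (h : W.Nonsingular x y), p • Point.some x y h = 0 → ¬ w x < 1)
    (Q : W.Point) (hQ : p • Q = 0) : Q = 0 := by
  by_contra hQ0
  have hodd : Odd p := hp.odd_of_ne_two (by omega)
  have hwp : w (p : ℚ) = 1 := by
    have := val_odd_eq_one h2 (n := (p : ℤ)) (by exact_mod_cast hodd)
    exact_mod_cast this
  have hc2 : Nat.Coprime 2 p := by
    rw [Nat.coprime_comm]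
    exact (Nat.coprime_primes hp Nat.prime_two).mpr (by omega)
  have hc3 : Nat.Coprime 3 p := by
    rw [Nat.coprime_comm]
    exact (Nat.coprime_primes hp Nat.prime_three).mpr (by omega)
  -- the point `Q`
  obtain ⟨x₁, y₁, h₁, rfl, hx₁, hy₁⟩ := unit_coords hW hwp hnode hQ0 hQ
  -- the point `2 Q`
  have h2Q0 : (2 : ℕ) • Point.some x₁ y₁ h₁ ≠ 0 := fun h => hQ0 (eq_zero_of_coprime_nsmul hc2 h hQ)
  have h2Q : p • ((2 : ℕ) • Point.some x₁ y₁ h₁) = 0 := by
    rw [smul_comm, hQ, nsmul_zero]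
  obtain ⟨x₂, y₂, h₂, e₂, hx₂, hy₂⟩ := unit_coords hW hwp hnode h2Q0 h2Q
  have hx : w (x₁ - x₂) < 1 := val_sub_lt_one_of_val_eq_one h2 hx₁ hx₂
  have hns : w (W.a₁ * y₁ - (3 * x₁ ^ 2 + 2 * W.a₂ * x₁ + W.a₄)) = 1 ∨
      w (2 * y₁ + W.a₁ * x₁ + W.a₃) = 1 := by
    right
    rw [ha₁, ha₃, add_zero, one_mul]
    have h2y : w (2 * y₁) < 1 := by
      rw [map_mul]
      exact (mul_le_of_le_one_right' hy₁).trans_lt h2
    rw [w.map_add_eq_of_lt_right (by rwa [hx₁]), hx₁]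
  -- the two cases for the reductions of `y₁`, `y₂`
  by_cases hy : w (y₁ - y₂) < 1
  · -- same reduction: `Q - 2Q ∈ E₁`
    have hker := SameRed.inKer_sub_of_same_reduction hW h₁ h₂ hx₁.le hy₁ hx₂.le hy₂ hx hy hns
    have hp' : p • (Point.some x₁ y₁ h₁ - Point.some x₂ y₂ h₂) = 0 := by
      rw [nsmul_sub, hQ, ← e₂, h2Q, sub_zero]
    have h0 := C1b.eq_zero_of_inKer_of_nsmul_eq_zero hW p hwp _ hker hp'
    rw [← e₂] at h0
    apply hQ0
    have : Point.some x₁ y₁ h₁ - (2 : ℕ) • Point.some x₁ y₁ h₁ = -Point.some x₁ y₁ h₁ := by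
      rw [two_nsmul]; abel
    rw [this, neg_eq_zero] at h0
    exact h0
  · -- opposite reductions: `Q + 2Q ∈ E₁`
    have hy' : w (y₁ - W.negY x₂ y₂) < 1 := by
      have e : y₁ - W.negY x₂ y₂ = (y₁ - y₂ - 1) + 2 * y₂ + (x₂ - 1) + 2 := by
        simp only [Affine.negY, ha₁, ha₃]; ring
      have hx₂' : w (x₂ - 1) < 1 :=
        (val_lt_one_or_sub_one h2 hx₂.le).resolve_left hx₂.not_lt
      have hy12 : w (y₁ - y₂) ≤ 1 := (w.map_sub _ _).trans (max_le hy₁ hy₂)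
      have hy12' : w (y₁ - y₂ - 1) < 1 := (val_lt_one_or_sub_one h2 hy12).resolve_left hy
      have h2y : w (2 * y₂) < 1 := by
        rw [map_mul]
        exact (mul_le_of_le_one_right' hy₂).trans_lt h2
      rw [e]
      exact (w.map_add _ _).trans_lt (max_lt ((w.map_add _ _).trans_lt (max_lt
        ((w.map_add _ _).trans_lt (max_lt hy12' h2y)) hx₂')) h2)
    have hneg : -Point.some x₂ y₂ h₂ = Point.some x₂ (W.negY x₂ y₂) ((nonsingular_neg ..).mpr h₂) :=
      rfl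
    have hny : w (W.negY x₂ y₂) ≤ 1 := by
      have e : W.negY x₂ y₂ = -y₂ - x₂ := by simp only [Affine.negY, ha₁, ha₃]; ring
      rw [e]
      exact (w.map_sub _ _).trans (max_le (by rwa [Valuation.map_neg]) hx₂.le)
    have hker := SameRed.inKer_sub_of_same_reduction hW h₁ ((nonsingular_neg ..).mpr h₂)
      hx₁.le hy₁ hx₂.le hny hx hy' hns
    rw [← hneg, ← e₂, sub_neg_eq_add] at hker
    have e3 : Point.some x₁ y₁ h₁ + (2 : ℕ) • Point.some x₁ y₁ h₁ =
        (3 : ℕ) • Point.some x₁ y₁ h₁ := by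
      rw [two_nsmul, succ_nsmul, two_nsmul]; abel
    rw [e3] at hker
    have hp' : p • ((3 : ℕ) • Point.some x₁ y₁ h₁) = 0 := by
      rw [smul_comm, hQ, nsmul_zero]
    have h0 := C1b.eq_zero_of_inKer_of_nsmul_eq_zero hW p hwp _ hker hp'
    exact hQ0 (eq_zero_of_coprime_nsmul hc3 h0 hQ)

end Fermat.Agent.S13.H11
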