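import Mathlib
import Fermat.Prelude.Def_FLTPrelim_FreyPackage
import Fermat.Agent.S13.H11.FreyArith
import Fermat.Agent.S13.H11.NoTorsion

/-!
# S13 / T7 (helper11): no rational point of order `p` on the Frey curve, modulo the node law

`NodeLaw v W n` is the statement of the node lemma (shape K3 of plan #1430 / (C3c) of S05):
an `n`-torsion point with `v x < 1` satisfies `v a₄ < v x` and `(v x) ^ n ∈ (v a₄) ^ (2 ℤ)`.

Main results:
* `no_rational_point_of_order_p_of_nodeLaw_rat` : the node law for the Frey curve over `ℚ` w.r.t.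
  one valuation `w` on `ℚ` with `w 2 < 1` implies T7;
* `no_rational_point_of_order_p_of_nodeLaw` : the node law for the Frey curve over any field
  `K ⊇ ℚ` w.r.t. one valuation `v` on `K` with `v 2 < 1` implies T7.
-/

set_option autoImplicit false

namespace Fermat.Agent.S13.H11

open WeierstrassCurve WeierstrassCurve.Affine
open Fermat.Agent.S05

variable {Γ₀ : Type*} [LinearOrderedCommGroupWithZero Γ₀]

/-- The node law (shape K3 / C3c) for `n`-torsion points near the node `(0, 0)`. -/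
def NodeLaw {K : Type*} [Field K] [DecidableEq K] (v : Valuation K Γ₀) (W : Affine K)
    (n : ℕ) : Prop :=
  ∀ (x y : K) (h : W.Nonsingular x y), n • Point.some x y h = 0 → v x < 1 →
    v W.a₄ < v x ∧ ∃ j : ℤ, v x ^ n = (v W.a₄ ^ 2) ^ j

variable (P : FreyPackage)

section rat

variable {w : Valuation ℚ Γ₀}

lemma freyQ_a₁ : (P.freyCurve⁄ℚ).a₁ = 1 := by
  simp [FreyPackage.freyCurve, WeierstrassCurve.baseChange]

lemma freyQ_a₃ : (P.freyCurve⁄ℚ).a₃ = 0 := by
  simp [FreyPackage.freyCurve, WeierstrassCurve.baseChange]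

lemma freyQ_a₆ : (P.freyCurve⁄ℚ).a₆ = 0 := by
  simp [FreyPackage.freyCurve, WeierstrassCurve.baseChange]

lemma freyQ_a₂ : (P.freyCurve⁄ℚ).a₂ = P.freyCurve.a₂ := by
  simp [WeierstrassCurve.baseChange]

lemma freyQ_a₄ : (P.freyCurve⁄ℚ).a₄ = P.freyCurve.a₄ := by
  simp [WeierstrassCurve.baseChange]

lemma freyQ_val_a₄_lt_one (h2 : w (2 : ℚ) < 1) : w P.freyCurve.a₄ < 1 := by
  obtain ⟨β, hβ, hval⟩ := frey_val_a₄ P (w := w) h2
  rw [hval, zpow_lt_one_iff h2]
  have h5 : (5 : ℤ) ≤ (P.p : ℤ) := by exact_mod_cast P.hp5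
  have hβ' : (1 : ℤ) ≤ (β : ℤ) := by exact_mod_cast hβ
  nlinarith

lemma freyQ_integral (h2 : w (2 : ℚ) < 1) : SameRed.IntegralCoeffs (P.freyCurve⁄ℚ) w := by
  refine ⟨?_, ?_, ?_, ?_, ?_⟩
  · rw [freyQ_a₁, map_one]
  · rw [freyQ_a₂]; exact frey_val_a₂ P
  · rw [freyQ_a₃, map_zero]; exact zero_le_one
  · rw [freyQ_a₄]; exact (freyQ_val_a₄_lt_one P h2).le
  · rw [freyQ_a₆, map_zero]; exact zero_le_one

variable [DecidableEq ℚ]

/-- The node law excludes points of order `p` near the node (arithmetic of `v₂(a₄) = p β - 4`). -/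
lemma no_node_torsion_rat (h2 : w (2 : ℚ) < 1) (hlaw : NodeLaw w (P.freyCurve⁄ℚ) P.p)
    (x y : ℚ) (h : (P.freyCurve⁄ℚ).Nonsingular x y) (hQ : P.p • Point.some x y h = 0) :
    ¬ w x < 1 := by
  intro hx
  obtain ⟨hlt, j, hj⟩ := hlaw x y h hQ hx
  rw [freyQ_a₄] at hlt hj
  obtain ⟨β, hβ, hval⟩ := frey_val_a₄ P (w := w) h2
  have hx0 : x ≠ 0 := by
    rintro rfl
    rw [map_zero] at hlt
    exact absurd hlt (not_lt.mpr zero_le)
  obtain ⟨ξ, hξ⟩ := exists_val_eq_zpow h2 hx0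
  rw [hξ] at hlt hx hj
  rw [hval] at hlt hj
  have h0 : 0 < ξ := (zpow_lt_one_iff h2 ξ).mp hx
  have h1 : ξ < (P.p : ℤ) * β - 4 := (zpow_lt_zpow_iff h2 _ _).mp hlt
  have hw0 : w (2 : ℚ) ≠ 0 := val_two_ne_zero
  have e : (P.p : ℤ) * ξ = 2 * ((P.p : ℤ) * β - 4) * j := by
    have e1 : (w (2 : ℚ) ^ ξ) ^ P.p = w 2 ^ (ξ * (P.p : ℤ)) := by
      rw [zpow_mul, zpow_natCast]
    have e2 : ((w (2 : ℚ) ^ ((P.p : ℤ) * β - 4)) ^ 2) ^ j =
        w 2 ^ (((P.p : ℤ) * β - 4) * 2 * j) := by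
      rw [zpow_mul, zpow_mul]
      norm_cast
    rw [e1, e2, zpow_eq_zpow_iff h2] at hj
    linarith
  exact frey_arith_contra P β ξ j h0 h1 e

/-- **T7 modulo the node law over `ℚ`.** -/
theorem no_rational_point_of_order_p_of_nodeLaw_rat (h2 : w (2 : ℚ) < 1)
    (hlaw : NodeLaw w (P.freyCurve⁄ℚ) P.p) (Q : (P.freyCurve⁄ℚ).Point) (hQ : P.p • Q = 0) :
    Q = 0 :=
  eq_zero_of_no_node_torsion (freyQ_integral P h2) h2 (freyQ_a₁ P) (freyQ_a₃ P) P.pp P.hp5
    (no_node_torsion_rat P h2 hlaw) Q hQ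

end rat

section general

variable {K : Type*} [Field K] [DecidableEq K] [Algebra ℚ K] [DecidableEq ℚ]

/-- The node law over an extension `K ⊇ ℚ` restricts to the node law over `ℚ`. -/
lemma nodeLaw_rat_of_nodeLaw (v : Valuation K Γ₀) {n : ℕ} (hlaw : NodeLaw v (P.freyCurve⁄K) n) :
    NodeLaw (v.comap (algebraMap ℚ K)) (P.freyCurve⁄ℚ) n := by
  intro x y h hQ hx
  have hmap : Point.map (W' := P.freyCurve) (Algebra.ofId ℚ K) (Point.some x y h) =
      Point.some (Algebra.ofId ℚ K x) (Algebra.ofId ℚ K y)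
        ((WeierstrassCurve.Affine.baseChange_nonsingular (W := P.freyCurve)
          (f := Algebra.ofId ℚ K) (Algebra.ofId ℚ K).injective x y).mpr h) := rfl
  have hQ' : n • Point.some (Algebra.ofId ℚ K x) (Algebra.ofId ℚ K y)
        ((WeierstrassCurve.Affine.baseChange_nonsingular (W := P.freyCurve)
          (f := Algebra.ofId ℚ K) (Algebra.ofId ℚ K).injective x y).mpr h) = 0 := by
    rw [← hmap, ← map_nsmul, hQ, map_zero]
  have ha₄ : (P.freyCurve⁄K).a₄ = algebraMap ℚ K ((P.freyCurve⁄ℚ).a₄) := by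
    simp [WeierstrassCurve.baseChange]
  have := hlaw _ _ _ hQ' hx
  rw [ha₄] at this
  exact this

/-- **T7 modulo the node law over any valued extension of `ℚ` with `v 2 < 1`.** -/
theorem no_rational_point_of_order_p_of_nodeLaw (v : Valuation K Γ₀) (h2 : v (2 : K) < 1)
    (hlaw : NodeLaw v (P.freyCurve⁄K) P.p) (Q : (P.freyCurve⁄ℚ).Point) (hQ : P.p • Q = 0) :
    Q = 0 := by
  have h2' : (v.comap (algebraMap ℚ K)) (2 : ℚ) < 1 := by
    rw [Valuation.comap_apply]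
    simpa using h2
  exact no_rational_point_of_order_p_of_nodeLaw_rat P h2' (nodeLaw_rat_of_nodeLaw P v hlaw) Q hQ

end general

end Fermat.Agent.S13.H11
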