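import Mathlib
import Fermat.Prelude.Def_FLTPrelim_FreyPackage
import Fermat.Prelude.Def_FLTPrelim_GaloisRep
import Fermat.Prelude.Def_FLTPrelim_Ramification
import Fermat.Agent.S13.Comp2Torsion
import Fermat.Agent.S13.H11.T7

/-!
# S13 / T7 (helper11): no nonzero Galois-fixed `p`-torsion point on the Frey curve

Final form (frozen interface of `coord/S13.md` / `Skel.result_of_parts`):
`T7 (P : FreyPackage) (x : E[p](ℚ̄)) (hx : ∀ σ, σ • x = x) : x = 0`.

Route: a Galois-fixed point is rational; a rational point of order `p` is excluded `2`-adically: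
near the node by the component homomorphism (`Comp2.NodeModel2.torsion_near_node`, helper511)
and `p ∤ 2 (p v₂(b) - 4)`; away from the node by `E₁` torsion-freeness and `#Ẽ_ns(𝔽₂) ≤ 3`.
-/

set_option autoImplicit false

namespace Fermat.Agent.S13.H11

open WeierstrassCurve WeierstrassCurve.Affine WeierstrassCurve.Affine.Point
open Fermat.Agent.S05

/-- `ℚ̄`. -/
abbrev Qb : Type := AlgebraicClosure ℚ

/-- There is a valuation subring of `ℚ̄` over `2`. -/
theorem exists_valuationSubring_two : ∃ A : ValuationSubring Qb, A.LiesOverPrime 2 := by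
  let A₀ : Subring Qb := (algebraMap ℤ Qb).range
  let l₀ : A₀ := ⟨((2 : ℕ) : Qb), ⟨((2 : ℕ) : ℤ), by simp⟩⟩
  have hI : Ideal.span {l₀} ≠ ⊤ := by
    intro h
    rw [Ideal.span_singleton_eq_top] at h
    obtain ⟨⟨m, n, rfl⟩, hm⟩ := h.exists_right_inv
    have h1 : (((2 : ℕ) : ℤ) : Qb) * ((n : ℤ) : Qb) = 1 := by
      have := congrArg Subtype.val hm
      simpa [l₀] using this
    have h2 : ((2 : ℕ) : ℤ) * n = 1 := by exact_mod_cast h1
    omega
  obtain ⟨A, -, hA⟩ := Ideal.image_subset_nonunits_valuationSubring _ hI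
  refine ⟨A, ?_⟩
  apply hA
  exact ⟨l₀, Ideal.subset_span rfl, rfl⟩

variable (P : FreyPackage)

section nodelaw

variable {Γ₀ : Type*} [LinearOrderedCommGroupWithZero Γ₀] (v : Valuation Qb Γ₀)

lemma freyQb_a₃ : (P.freyCurve⁄Qb).a₃ = 0 := by
  simp [FreyPackage.freyCurve, WeierstrassCurve.baseChange]

lemma freyQb_a₆ : (P.freyCurve⁄Qb).a₆ = 0 := by
  simp [FreyPackage.freyCurve, WeierstrassCurve.baseChange]

lemma freyQb_a₄ : (P.freyCurve⁄Qb).a₄ = algebraMap ℚ Qb P.freyCurve.a₄ := by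
  simp [WeierstrassCurve.baseChange]

lemma freyQb_b₂ : (P.freyCurve⁄Qb).b₂ = algebraMap ℚ Qb P.freyCurve.b₂ := by
  simp [WeierstrassCurve.baseChange]

lemma frey_val_b₂ {w : Valuation ℚ Γ₀} (h2 : w (2 : ℚ) < 1) : w P.freyCurve.b₂ = 1 := by
  obtain ⟨z, hz⟩ := frey_a₂_eq P
  have e : P.freyCurve.b₂ = 1 + ((4 * z : ℤ) : ℚ) := by
    rw [WeierstrassCurve.b₂, frey_a₁_eq, hz]; push_cast; ring
  have h4 : w ((4 * z : ℤ) : ℚ) < 1 :=
    val_even_lt_one h2 ⟨2 * z, by ring⟩
  rw [e, w.map_add_eq_of_lt_left (by rwa [map_one]), map_one]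

variable [DecidableEq Qb]

/-- The node law for the Frey curve over `ℚ̄`, from the component homomorphism at `2`. -/
theorem frey_nodeLaw (h2 : v (2 : Qb) < 1) : NodeLaw v (P.freyCurve⁄Qb) P.p := by
  have h2' : (v.comap (algebraMap ℚ Qb)) (2 : ℚ) < 1 := by
    rw [Valuation.comap_apply]
    simpa using h2
  have hb2 : v (P.freyCurve⁄Qb).b₂ = 1 := by
    rw [freyQb_b₂]
    exact frey_val_b₂ P h2'
  have ha : v (P.freyCurve⁄Qb).a₄ < 1 := by
    rw [freyQb_a₄]
    exact freyQ_val_a₄_lt_one P h2'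
  have ha0 : (P.freyCurve⁄Qb).a₄ ≠ 0 := by
    rw [freyQb_a₄]
    exact (map_ne_zero (algebraMap ℚ Qb)).mpr (frey_a₄_ne_zero P)
  obtain ⟨M⟩ := Comp2.exists_nodeModel2 (v := v) (P.freyCurve⁄Qb) (freyQb_a₃ P) (freyQb_a₆ P)
    hb2 ha ha0
  intro x y h hQ hx
  obtain ⟨hlt, j, hj⟩ := M.torsion_near_node P.hp_odd h hQ hx
  refine ⟨hlt, (j : ℤ), ?_⟩
  rw [zpow_natCast, ← pow_mul]
  exact hj

end nodelaw

/-- **T7, rational form**: the Frey curve has no rational point of order `p`. -/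
theorem no_rational_point_of_order_p [DecidableEq ℚ] (Q : (P.freyCurve⁄ℚ).Point)
    (hQ : P.p • Q = 0) : Q = 0 := by
  classical
  obtain ⟨A, hA⟩ := exists_valuationSubring_two
  have h2 : A.valuation (2 : Qb) < 1 := by
    have := (A.mem_nonunits_iff).mp hA
    simpa using this
  exact no_rational_point_of_order_p_of_nodeLaw P A.valuation h2
    (frey_nodeLaw P A.valuation h2) Q hQ

/-- `ℚ̄/ℚ` is Galois. -/
theorem isGalois_Qb : IsGalois ℚ Qb := by
  have : Algebra.IsAlgebraic ℚ Qb := AlgebraicClosure.isAlgebraic ℚ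
  have : IsAlgClosure ℚ Qb := ⟨inferInstance, inferInstance⟩
  have : Normal ℚ Qb := IsAlgClosure.normal ℚ Qb
  exact isGalois_iff.mpr ⟨inferInstance, inferInstance⟩

/-- **T7** (frozen interface): a Galois-fixed point of `E[p](ℚ̄)` of the Frey curve is zero. -/
theorem T7 (x : Submodule.torsionBy ℤ (P.freyCurve⁄Qb).Point P.p)
    (hx : ∀ σ : Qb ≃ₐ[ℚ] Qb, σ • x = x) : x = 0 := by
  have := isGalois_Qb
  apply Subtype.ext
  show (x : (P.freyCurve⁄Qb).Point) = 0
  have hp : (P.p : ℤ) • (x : (P.freyCurve⁄Qb).Point) = 0 :=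
    (Submodule.mem_torsionBy_iff _ _).mp x.2
  have hfix : ∀ σ : Qb ≃ₐ[ℚ] Qb, σ • (x : (P.freyCurve⁄Qb).Point) = x :=
    fun σ => congrArg Subtype.val (hx σ)
  rcases hX : (x : (P.freyCurve⁄Qb).Point) with _ | ⟨a, b, hab⟩
  · rfl
  · exfalso
    rw [hX] at hfix hp
    have ha : ∀ σ : Qb ≃ₐ[ℚ] Qb, σ a = a := fun σ => by
      have := hfix σ
      rw [algEquiv_smul_def, Point.map_some] at this
      exact (Point.some.inj this).1
    have hb : ∀ σ : Qb ≃ₐ[ℚ] Qb, σ b = b := fun σ => by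
      have := hfix σ
      rw [algEquiv_smul_def, Point.map_some] at this
      exact (Point.some.inj this).2
    obtain ⟨a0, rfl⟩ := (InfiniteGalois.mem_range_algebraMap_iff_fixed a).mpr ha
    obtain ⟨b0, rfl⟩ := (InfiniteGalois.mem_range_algebraMap_iff_fixed b).mpr hb
    have h0 : (P.freyCurve⁄ℚ).Nonsingular a0 b0 :=
      (WeierstrassCurve.Affine.baseChange_nonsingular (W := P.freyCurve)
        (f := Algebra.ofId ℚ Qb) (Algebra.ofId ℚ Qb).injective a0 b0).mp hab
    have hmap : Point.map (W' := P.freyCurve) (Algebra.ofId ℚ Qb) (Point.some a0 b0 h0)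
        = Point.some _ _ hab := rfl
    have hQ : P.p • (Point.some a0 b0 h0 : (P.freyCurve⁄ℚ).Point) = 0 := by
      apply Point.map_injective (W' := P.freyCurve) (Algebra.ofId ℚ Qb)
      rw [map_nsmul, hmap, _root_.map_zero]
      rw [← natCast_zsmul]
      exact hp
    exact Point.some_ne_zero _ (no_rational_point_of_order_p P _ hQ)

end Fermat.Agent.S13.H11
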